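/-
Level lowering: a coefficient ring with a primitive `p`-th root of unity whose residue field contains
the field with `p ^ 2` elements.
-/
import Fermat.Agent.GalRep.FiniteExtension

set_option autoImplicit false
set_option linter.style.haveILetI false

noncomputable section

open IsLocalRing Polynomial

namespace Fermat.Agent.LL

/-- Monic quadratic polynomials over the prime field split as soon as there is a primitive root of
unity of order `p ^ 2 - 1`. -/
theorem exists_roots_of_primitive {p : ℕ} [Fact p.Prime] (hp2 : p ≠ 2) {k : Type} [Field k]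
    [CharP k p] {g : k} (hg : IsPrimitiveRoot g (p ^ 2 - 1)) (t d : ZMod p) :
    ∃ α β : k, (X ^ 2 - C ((ZMod.castHom (dvd_refl p) k) t) * X +
      C ((ZMod.castHom (dvd_refl p) k) d) : k[X]) = (X - C α) * (X - C β) := by
  have hp : p.Prime := Fact.out
  set ψ := ZMod.castHom (dvd_refl p) k
  have hp3 : 3 ≤ p := by have := hp.two_le; omega
  obtain ⟨m, hm⟩ : Even (p + 1) := (hp.odd_of_ne_two hp2).add_one
  have hfac : p ^ 2 - 1 = (p + 1) * (p - 1) := by
    rw [← Nat.sq_sub_sq, one_pow]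
  have hsqrt : ∀ x : ZMod p, ∃ s : k, s * s = ψ x := by
    intro x
    rcases eq_or_ne x 0 with rfl | hx
    · exact ⟨0, by rw [zero_mul, map_zero]⟩
    have h1 : (ψ x) ^ (p ^ 2 - 1) = 1 := by
      rw [hfac, mul_comm, pow_mul, ← map_pow, ZMod.pow_card_sub_one_eq_one hx, map_one, one_pow]
    haveI : NeZero (p ^ 2 - 1) := ⟨by rw [hfac]; exact Nat.mul_ne_zero (by omega) (by omega)⟩
    obtain ⟨i, -, hi⟩ := hg.eq_pow_of_pow_eq_one h1
    have h2 : g ^ (i * (p - 1)) = 1 := by
      rw [pow_mul, hi, ← map_pow, ZMod.pow_card_sub_one_eq_one hx, map_one]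
    have h3 := (hg.pow_eq_one_iff_dvd _).mp h2
    rw [hfac] at h3
    obtain ⟨j, hj⟩ := Nat.dvd_of_mul_dvd_mul_right (by omega) h3
    refine ⟨g ^ (m * j), ?_⟩
    rw [← pow_add, ← hi, hj]
    congr 1
    rw [hm, add_mul]
  obtain ⟨s, hs⟩ := hsqrt (t ^ 2 - 4 * d)
  have h2 : (2 : k) ≠ 0 := by
    intro h
    rw [show (2 : k) = ((2 : ℕ) : k) by simp, CharP.cast_eq_zero_iff k p] at h
    have := Nat.le_of_dvd two_pos h
    omega
  refine ⟨(ψ t + s) / 2, (ψ t - s) / 2, ?_⟩
  rw [map_sub, map_pow, map_mul, map_ofNat] at hs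
  have e1 : (ψ t + s) / 2 + (ψ t - s) / 2 = ψ t := by field_simp; ring
  have e2 : (ψ t + s) / 2 * ((ψ t - s) / 2) = ψ d := by
    field_simp
    linear_combination -hs
  calc (X ^ 2 - C (ψ t) * X + C (ψ d) : k[X])
      = X ^ 2 - C ((ψ t + s) / 2 + (ψ t - s) / 2) * X + C ((ψ t + s) / 2 * ((ψ t - s) / 2)) := by
        rw [e1, e2]
    _ = _ := by simp only [map_add, map_mul]; ring

/-- The coefficient ring. -/
theorem exists_coeff (p : ℕ) [Fact p.Prime] (hp2 : p ≠ 2) :
    ∃ (O : Type) (_ : CommRing O) (_ : IsDomain O) (_ : IsDiscreteValuationRing O)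
      (_ : IsAdicComplete (maximalIdeal O) O) (_ : Finite (ResidueField O))
      (_ : Algebra ℤ_[p] O) (_ : Module.Finite ℤ_[p] O) (_ : CharZero O) (ζ i₀ : O),
      CharP (ResidueField O) p ∧ IsPrimitiveRoot ζ p ∧ i₀ * i₀ = -1 ∧
        ∃ g : ResidueField O, IsPrimitiveRoot g (p ^ 2 - 1) := by
  classical
  have hp : p.Prime := Fact.out
  set M := p ^ 2 - 1 with hM
  have hM4 : 4 ∣ M := by
    obtain ⟨m, rfl⟩ := hp.odd_of_ne_two hp2
    exact ⟨m ^ 2 + m, by rw [hM]; ring_nf; omega⟩
  have hM0 : 0 < M := by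
    have : 2 ^ 2 ≤ p ^ 2 := Nat.pow_le_pow_left hp.two_le 2
    omega
  have hpM : p * M ≠ 0 := Nat.mul_ne_zero hp.ne_zero hM0.ne'
  let f : (ℚ_[p])[X] := X ^ (p * M) - C 1
  let K := f.SplittingField
  haveI : CharZero K := charZero_of_injective_algebraMap (algebraMap ℚ_[p] K).injective
  haveI : NeZero (p * M) := ⟨hpM⟩
  obtain ⟨z, hz⟩ : ∃ z : K, IsPrimitiveRoot z (p * M) := by
    have hsplit := Polynomial.SplittingField.splits f
    have hmap : f.map (algebraMap ℚ_[p] K) = X ^ (p * M) - 1 := by simp [f]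
    have hn : (nthRootsFinset (p * M) (1 : K)).card = p * M := by
      rw [nthRootsFinset_def, Multiset.toFinset_card_of_nodup, nthRoots, map_one,
        ← (show f.map (algebraMap ℚ_[p] K) = _ from hmap), ← hsplit.natDegree_eq_card_roots, hmap,
        ← map_one C, natDegree_X_pow_sub_C]
      have hsep : ((X ^ (p * M) - 1 : K[X])).Separable :=
        X_pow_sub_one_separable_iff.mpr (Nat.cast_ne_zero.mpr hpM)
      rw [nthRoots, map_one]
      exact nodup_roots hsep
    haveI : HasEnoughRootsOfUnity K (p * M) := by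
      refine HasEnoughRootsOfUnity.of_card_le ?_
      refine le_trans hn.ge ?_
      rw [← Nat.card_eq_finsetCard]
      refine Nat.card_le_card_of_injective
        (fun x => rootsOfUnity.mkOfPowEq (x : K) ((mem_nthRootsFinset (Nat.pos_of_ne_zero hpM) 1).mp x.2))
        (fun x y h => Subtype.ext (congrArg (fun w : rootsOfUnity (p * M) K => ((w : Kˣ) : K)) h))
    exact HasEnoughRootsOfUnity.exists_primitiveRoot K (p * M)
  let R := integralClosure ℤ_[p] K
  haveI : IsScalarTower ℤ_[p] ℚ_[p] K := IsScalarTower.of_algebraMap_eq fun _ => rfl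
  haveI : IsIntegralClosure R ℤ_[p] K := integralClosure.isIntegralClosure _ _
  haveI : IsIntegrallyClosed R := integralClosure.isIntegrallyClosedOfFiniteExtension ℚ_[p]
  haveI : Module.Finite ℤ_[p] R := IsIntegralClosure.finite ℤ_[p] ℚ_[p] K R
  haveI : Finite (ResidueField ℤ_[p]) := Finite.of_equiv (ZMod p) PadicInt.residueField.toEquiv.symm
  have hinj : Function.Injective (algebraMap ℤ_[p] R) := fun a b hab => by
    have h2 : algebraMap ℤ_[p] K a = algebraMap ℤ_[p] K b := congrArg (fun x : R => (x : K)) hab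
    rw [IsScalarTower.algebraMap_apply ℤ_[p] ℚ_[p] K, IsScalarTower.algebraMap_apply ℤ_[p] ℚ_[p] K] at h2
    exact (IsFractionRing.injective ℤ_[p] ℚ_[p]) ((algebraMap ℚ_[p] K).injective h2)
  obtain ⟨hloc, hlh, hdvr, hcompl, hfin⟩ := GalRep.isDiscreteValuationRing_finite ℤ_[p] (R := R) hinj
  haveI := hloc
  haveI := hlh
  haveI : CharZero R := charZero_of_injective_algebraMap hinj
  have hzint : z ∈ integralClosure ℤ_[p] K :=
    ⟨X ^ (p * M) - 1, monic_X_pow_sub_C 1 hpM, by simp [hz.pow_eq_one]⟩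
  let zR : R := ⟨z, hzint⟩
  have hzR : IsPrimitiveRoot zR (p * M) :=
    hz.of_map_of_injective (f := R.val) Subtype.val_injective
  have hζ := hzR.pow (Nat.pos_of_ne_zero hpM) (mul_comm p M)
  have hg := hzR.pow (Nat.pos_of_ne_zero hpM) rfl
  obtain ⟨e, he⟩ := hM4
  have hi₀ : (zR ^ p) ^ e * (zR ^ p) ^ e = -1 := by
    have h4 := hg.pow hM0 (show M = e * 4 by omega)
    set w := (zR ^ p) ^ e
    have h2 : IsPrimitiveRoot (w ^ 2) 2 := h4.pow (by norm_num) (by norm_num : 4 = 2 * 2)
    rw [← pow_two]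
    exact h2.eq_neg_one_of_two_right
  haveI hchar : CharP (ResidueField R) p := by
    refine (CharP.charP_iff_prime_eq_zero hp).mpr ?_
    rw [← map_natCast (residue R), residue_eq_zero_iff, ← map_natCast (algebraMap ℤ_[p] R)]
    exact map_nonunit (algebraMap ℤ_[p] R) _ PadicInt.p_nonunit
  refine ⟨R, inferInstance, inferInstance, hdvr, hcompl, hfin, inferInstance, inferInstance,
    inferInstance, zR ^ M, (zR ^ p) ^ e, hchar, hζ, hi₀, residue R (zR ^ p), ?_⟩
  haveI : NeZero (M : ResidueField R) := ⟨fun h => by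
    rw [CharP.cast_eq_zero_iff (ResidueField R) p] at h
    have h' : p ∣ p ^ 2 - M := Nat.dvd_sub (dvd_pow_self p two_ne_zero) h
    rw [show p ^ 2 - M = 1 by omega] at h'
    exact hp.not_dvd_one h'⟩
  have hcyc : (cyclotomic M R).IsRoot (zR ^ p) := hg.isRoot_cyclotomic hM0
  rw [← isRoot_cyclotomic_iff, ← map_cyclotomic M (residue R)]
  exact hcyc.map

end Fermat.Agent.LL
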