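/-
Level lowering: inertia at `2` does not act trivially on the torsion of the Frey curve.
-/
import Fermat.Agent.EC.Local.Line
import Fermat.Agent.GalRep.InertiaBase.Ring

set_option autoImplicit false
set_option linter.style.haveILetI false

noncomputable section

open WeierstrassCurve Polynomial
open Fermat.Agent.EC
open Fermat.Agent.Galois (GQ)
open scoped WeierstrassCurve.Affine

namespace Fermat.Agent.LL

section General

variable {L : Type*} [Field L] {A : ValuationSubring L}

local notation "v" => A.valuation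

/-- A product of monic linear factors with non-integral or unit roots is dominated by its constant
term. -/
theorem val_coeff_prod_le' (s : Multiset L) (hs : ∀ a ∈ s, 1 ≤ v a) (k : ℕ) :
    v (((s.map fun a => X - C a).prod).coeff k) ≤ v (((s.map fun a => X - C a).prod).coeff 0) := by
  induction s using Multiset.induction generalizing k with
  | empty =>
    rcases k with _ | k
    · exact le_rfl
    · simp [coeff_one]
  | cons a s ih =>
    have h := ih (fun b hb => hs b (Multiset.mem_cons_of_mem hb))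
    have ha := hs a (Multiset.mem_cons_self a s)
    rw [Multiset.map_cons, Multiset.prod_cons]
    set r := (s.map fun a => X - C a).prod
    have h0 : v (((X - C a) * r).coeff 0) = v a * v (r.coeff 0) := by simp [sub_mul]
    rw [h0]
    rcases k with _ | k
    · exact h0.le
    rw [sub_mul, coeff_sub, coeff_X_mul, coeff_C_mul]
    refine (A.valuation.map_sub _ _).trans (max_le ((h k).trans ?_) ?_)
    · exact le_mul_of_one_le_left' ha
    · rw [map_mul]; exact mul_le_mul' le_rfl (h _)

variable [IsAlgClosed L] [CharZero L] [DecidableEq L]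

/-- A `p`-torsion point of the normal form meeting the node. -/
theorem exists_singular_torsion (c : A) (hc : v (algebraMap A L c) < 1)
    [((tateNF c).map (algebraMap A L)).IsElliptic] {p : ℕ} (hp : 2 ≤ p) :
    ∃ (x y : L) (h : ((tateNF c).map (algebraMap A L)).toAffine.Nonsingular x y),
      p • Affine.Point.some x y h = 0 ∧ v x < 1 := by
  by_contra hno
  push Not at hno
  have hφ : Function.Injective (algebraMap A L) := Subtype.val_injective
  obtain ⟨a, b, hab⟩ := exists_mulPair (W := tateNF c) hφ p (by omega)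
  set r := IsLocalRing.residue A with hr
  have hc' : r c = 0 := (IsLocalRing.residue_eq_zero_iff _).2
    ((A.valuation_lt_one_iff c).2 hc)
  have hW : (tateNF c).map r = ConductorMatch.nodalCubic _ := by
    ext <;> simp [tateNF, ConductorMatch.nodalCubic, WeierstrassCurve.map, hc']
  obtain ⟨-, hnod⟩ := ConductorMatch.mulPair_nodal r hφ hW p (by omega) hab
  have hroots : ∀ x ∈ (b.map (algebraMap A L)).roots, 1 ≤ v x := by
    intro x hx
    obtain ⟨hq0, hev⟩ := mem_roots'.1 hx
    obtain ⟨y, hy⟩ := exists_point (W := tateNF c) (φ := algebraMap A L) x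
    refine hno x y hy ?_
    rcases he : p • Affine.Point.some x y hy with _ | ⟨x', y', h'⟩
    · rfl
    · exact absurd hev (hab.spec_some x y hy _ _ _ he).1
  have h0 : r (b.coeff 0) = 0 := by
    have e := congrArg (Polynomial.eval 0) hnod
    simp only [eval_comp, eval_mul, eval_pow, eval_add, eval_X] at e
    rw [zero_pow two_ne_zero, add_zero, zero_pow (Nat.mul_ne_zero (by omega) (by omega)),
      zero_mul, ← coeff_zero_eq_eval_zero, coeff_map] at e
    exact e
  have hv0 : v (algebraMap A L (b.coeff 0)) < 1 :=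
    (A.valuation_lt_one_iff _).1 ((IsLocalRing.residue_eq_zero_iff _).1 h0)
  have hbz : b.map r = 0 := by
    ext k
    rw [coeff_map, coeff_zero, IsLocalRing.residue_eq_zero_iff, A.valuation_lt_one_iff]
    have : v ((b.map (algebraMap A L)).coeff k) ≤ v ((b.map (algebraMap A L)).coeff 0) := by
      rw [(IsAlgClosed.splits (b.map (algebraMap A L))).eq_prod_roots, coeff_C_mul, coeff_C_mul,
        map_mul, map_mul]
      exact mul_le_mul' le_rfl (val_coeff_prod_le' _ hroots k)
    rw [coeff_map, coeff_map] at this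
    exact lt_of_le_of_lt this hv0
  rw [hbz, zero_comp, eq_comm, mul_eq_zero] at hnod
  rcases hnod with e | e
  · have := congrArg (fun q : (IsLocalRing.ResidueField A)[X] => q.coeff 1)
      (pow_eq_zero_iff'.1 e).1
    simp [coeff_X_pow] at this
  · exact ConductorMatch.nodalD_ne_zero (by omega) ((pow_eq_zero_iff two_ne_zero).1 e)

/-- A `p`-torsion point with abscissa in the maximal ideal. -/
theorem exists_small_abscissa (W : WeierstrassCurve A) [(W.map (algebraMap A L)).IsElliptic]
    (h2 : v (2 : L) < 1) (ha₁ : W.a₁ = 1) (ha₃ : W.a₃ = 0) {m : ℕ} (hm : 1 ≤ m)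
    (ha₄ : v (algebraMap A L W.a₄) = v (2 : L) ^ m)
    (hΔeq : v (algebraMap A L W.Δ) = v (algebraMap A L W.a₄) ^ 2) {p : ℕ} [Fact p.Prime]
    (hpu : IsUnit (p : A)) :
    ∃ (x y : L) (h : (W.map (algebraMap A L)).toAffine.Nonsingular x y),
      p • Affine.Point.some x y h = 0 ∧ v x < 1 := by
  have h20 : v (2 : L) ≠ 0 := (_root_.map_ne_zero _).2 two_ne_zero
  have h2p : 0 < v (2 : L) := zero_lt_iff.2 h20
  have hm1 : v (algebraMap A L W.a₄) < 1 := by
    rw [ha₄]; exact pow_lt_one₀ zero_le h2 (by omega)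
  have hΔ : v (algebraMap A L W.Δ) < 1 := by
    rw [hΔeq]; exact pow_lt_one₀ zero_le hm1 two_ne_zero
  have hΔ0 : W.Δ ≠ 0 := by
    intro e
    have := (W.map (algebraMap A L)).isUnit_Δ
    rw [map_Δ, e, map_zero] at this
    exact not_isUnit_zero this
  obtain ⟨hb2', hb2⟩ := val_b₂_eq_one W h2 ha₁
  have hb4 : algebraMap A L W.b₄ = 2 * algebraMap A L W.a₄ := by
    rw [WeierstrassCurve.b₄, ha₁, ha₃, mul_zero, add_zero, map_mul, map_ofNat]
  have hvb4 : v (algebraMap A L W.b₄) < 1 := by rw [hb4]; exact val_mul_lt_one _ h2 hm1.le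
  have h24 : v (24 : L) ≤ 1 := by exact_mod_cast val_natCast_le_one (A := A) 24
  have hc₄ : v (algebraMap A L W.c₄) = 1 := by
    rw [WeierstrassCurve.c₄, map_sub, map_mul, map_pow, map_ofNat,
      Valuation.map_sub_eq_of_lt_left, map_pow, hb2, one_pow]
    rw [map_pow, hb2, one_pow]
    exact val_mul_lt_one' _ h24 hvb4
  obtain ⟨u, c, hu, hc0, hc, -, hC⟩ := exists_tateNF W hΔ hΔ0 hc₄
  set C := toTateNF (W.map (algebraMap A L)) u with hCdef
  have hvu : v (u : L) = 1 := by
    have := congrArg v hu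
    rw [map_pow, hc₄] at this
    exact (pow_eq_one_iff_of_nonneg zero_le (by norm_num)).1 this
  haveI hell : ((tateNF c).map (algebraMap A L)).IsElliptic := by rw [← hC]; infer_instance
  obtain ⟨X', Y', hXY, ht', hX⟩ := exists_singular_torsion c hc (p := p) (Fact.out : p.Prime).two_le
  obtain ⟨x, y, h, t, hx⟩ := exists_vc_preimage (V := W.map (algebraMap A L)) C hC hXY ht'
  obtain ⟨hr, hu2⟩ := toTateNF_branch W hvu hC hpu h t
  obtain ⟨h3, h12⟩ := val_twelve (A := A) h2
  have hd : v ((u : L) ^ 2 - algebraMap A L W.b₂) ≤ v (2 : L) ^ 2 := by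
    rw [hu2, add_sub_cancel_left, map_mul, h12]
    exact mul_le_of_le_one_right zero_le hr
  have hsum : v ((u : L) ^ 2 + algebraMap A L W.b₂) = v (2 : L) := by
    rw [show (u : L) ^ 2 + algebraMap A L W.b₂ =
      ((u : L) ^ 2 - algebraMap A L W.b₂) + 2 * algebraMap A L W.b₂ by ring,
      Valuation.map_add_eq_of_lt_right, map_mul, hb2, mul_one]
    rw [map_mul, hb2, mul_one]
    exact lt_of_le_of_lt hd (by rw [pow_two]; exact mul_lt_of_lt_one_right h2p h2)
  have hrv : v C.r < 1 := by
    have e : (12 * C.r) * ((u : L) ^ 2 + algebraMap A L W.b₂) =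
        -(2 * 2 * 2 * 2 * 3 * algebraMap A L W.a₄) := by
      have hu4 := hu
      rw [WeierstrassCurve.c₄, map_sub, map_mul, map_pow, map_ofNat, hb4] at hu4
      linear_combination hu4 - ((u : L) ^ 2 + algebraMap A L W.b₂) * hu2
    have := congrArg v e
    rw [map_mul, map_mul, hsum, h12, Valuation.map_neg] at this
    simp only [map_mul, h3, mul_one] at this
    have hval : v C.r = v (2 : L) * v (algebraMap A L W.a₄) := by
      apply mul_left_cancel₀ (pow_ne_zero 3 h20)
      rw [pow_succ, pow_two]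
      calc v (2 : L) * v (2 : L) * v (2 : L) * v C.r
          = v (2 : L) ^ 2 * v C.r * v (2 : L) := by rw [pow_two]; ac_rfl
        _ = _ := this
        _ = _ := by ac_rfl
    rw [hval]
    exact val_mul_lt_one _ h2 hm1.le |> fun h => by rwa [map_mul] at h
  refine ⟨x, y, h, t, ?_⟩
  rw [show x = (u : L) ^ 2 * X' + C.r by rw [← hx, vcX, show C.u = u from rfl]; field_simp; ring]
  refine val_add_lt _ ?_ hrv
  rw [map_mul, map_pow, hvu, one_pow, one_mul]
  exact hX

end General

local notation "ℚb" => AlgebraicClosure ℚ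

/-- Inertia at `2` acts non-trivially on `E[p]`. -/
theorem exists_inertia_two_moves (P : FreyPackage)
    {A : ValuationSubring (AlgebraicClosure ℚ)} (hA : A.LiesOverPrime 2) :
    ∃ σ ∈ A.inertiaSubgroupIn ℚ, ∃ x : FreyTorsion P, σ • x ≠ x := by
  classical
  haveI : Fact P.p.Prime := ⟨P.pp⟩
  by_contra hfix
  push Not at hfix
  have hp5 := P.hp5
  have h2 : A.valuation (2 : ℚb) < 1 := (ValuationSubring.mem_nonunits_iff A).1 hA
  have hp2 : ¬ 2 ∣ P.p := fun hd => by
    have := (Nat.prime_dvd_prime_iff_eq Nat.prime_two P.pp).1 hd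
    omega
  have hpu : IsUnit (P.p : A) := isUnit_natCast Nat.prime_two hA hp2
  have h16 : A.valuation (16 : ℚb) = A.valuation (2 : ℚb) ^ 4 := by
    rw [← map_pow]; norm_num
  have h20 : A.valuation (2 : ℚb) ≠ 0 := (_root_.map_ne_zero _).2 two_ne_zero
  -- the valuation of `a₄`
  have hb2 : (2 : ℤ) ∣ P.b := (ZMod.intCast_zmod_eq_zero_iff_dvd P.b 2).1 P.hb2
  obtain ⟨k, hk⟩ := exists_val_intCast_eq_pow (A := A) Nat.prime_two hA P.hb0
  rw [Nat.cast_ofNat] at hk
  have hk0 : k ≠ 0 := fun e => by
    have := val_intCast_lt_one (A := A) (q := 2) hA (by exact_mod_cast hb2)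
    rw [hk, e, pow_zero] at this
    exact lt_irrefl _ this
  have hcop : ∀ n : ℤ, gcd P.b n = 1 → A.valuation ((n : ℤ) : ℚb) = 1 := fun n hn =>
    val_intCast_eq_one Nat.prime_two hA fun hd => by
      have := dvd_gcd hb2 (by exact_mod_cast hd : (2 : ℤ) ∣ n)
      rw [hn] at this
      omega
  have hva := hcop P.a (by rw [gcd_comm]; exact P.hgcdab)
  have hvc := hcop P.c P.hgcdbc
  have hkp : 5 ≤ k * P.p := le_trans hp5 (Nat.le_mul_of_pos_left P.p (Nat.pos_of_ne_zero hk0))
  obtain ⟨m, hm⟩ : ∃ m, k * P.p = m + 4 := ⟨k * P.p - 4, by omega⟩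
  have hm1 : 1 ≤ m := by omega
  have ha₄ : A.valuation (algebraMap A ℚb (freyModel P A).a₄) = A.valuation (2 : ℚb) ^ m := by
    rw [← map_a₄, freyModel_map, show (P.freyCurve⁄ℚb).a₄ = algebraMap ℚ ℚb P.freyCurve.a₄
      from rfl, show P.freyCurve.a₄ = ((-(P.a ^ P.p) * P.b ^ P.p : ℤ) : ℚ) / 16 by
        simp only [FreyPackage.freyCurve]; push_cast; ring,
      map_div₀, map_intCast, map_ofNat, map_div₀, h16]
    push_cast
    rw [map_mul, Valuation.map_neg, map_pow, map_pow, hva, one_pow, one_mul, hk, ← pow_mul, hm,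
      pow_add, mul_div_assoc, div_self (pow_ne_zero _ h20), mul_one]
  have hΔ : A.valuation (algebraMap A ℚb (freyModel P A).Δ) =
      A.valuation (algebraMap A ℚb (freyModel P A).a₄) ^ 2 := by
    rw [freyModel_val_Δ, ha₄, show (256 : ℚb) = 2 ^ 8 by norm_num, map_pow]
    push_cast
    rw [map_mul, map_mul, hva, hvc, one_mul, mul_one, hk, ← pow_mul, ← pow_mul,
      show k * (P.p * 2) = m * 2 + 8 by rw [← mul_assoc, hm]; ring, pow_add, mul_div_assoc,
      div_self (pow_ne_zero _ h20), mul_one, pow_mul]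
  have hpm : ¬ P.p ∣ 2 * m := fun hd => by
    have h8 : P.p ∣ 2 * m + 8 := ⟨2 * k, by linarith⟩
    have : P.p ∣ 2 ^ 3 := by
      have := Nat.dvd_sub h8 hd
      rwa [Nat.add_sub_cancel_left] at this
    have := Nat.le_of_dvd two_pos (P.pp.dvd_of_dvd_pow this)
    omega
  haveI : ((freyModel P A).map (algebraMap A ℚb)).IsElliptic := by
    rw [freyModel_map]; infer_instance
  obtain ⟨x, y, h, t, hx⟩ := exists_small_abscissa (freyModel P A) h2 (map_one _)
    (map_zero _) hm1 ha₄ hΔ hpu
  refine two_no_rational (freyModel P A) h2 (map_one _) (map_zero _) (map_zero _) hm1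
    ha₄ hΔ hpm hp5 hpu h t ?_
  rcases eq_or_ne x 0 with hx0 | hx0
  · exact Or.inr (Or.inl hx0)
  -- the abscissa is fixed by inertia
  obtain ⟨Q, hQ, hQx⟩ : ∃ Q : (P.freyCurve⁄ℚb).Point, P.p • Q = 0 ∧ abscissa P Q = x := by
    have e : (freyModel P A).map (algebraMap A ℚb) =
        (P.freyCurve⁄ℚb : WeierstrassCurve ℚb) := freyModel_map P A
    have h' : (P.freyCurve⁄ℚb).Nonsingular x y := by rw [← freyModel_map P A]; exact h
    refine ⟨Affine.Point.some x y h', ?_, rfl⟩
    have := congrArg (sigmaPoint (RingHom.id ℚb)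
      (show ((freyModel P A).map (algebraMap A ℚb)).map (RingHom.id ℚb) =
        (P.freyCurve⁄ℚb : WeierstrassCurve ℚb) by rw [freyModel_map]; exact map_id _)) t
    rwa [map_nsmul, map_zero, sigmaPoint_some] at this
  have hxI : x ∈ NewVec.inertiaFld A := by
    refine (NewVec.mem_inertiaFld A).mpr fun σ hσ => ?_
    have := congrArg (fun w : FreyTorsion P => abscissa P w.1)
      (hfix σ hσ ⟨Q, by rw [Submodule.mem_torsionBy_iff, natCast_zsmul, hQ]⟩)
    exact (by rw [← hQx]; exact (abscissa_smul P σ Q).symm.trans this)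
  obtain ⟨i, hi⟩ := GalRep.InertiaBase.val_inertiaFld Nat.prime_two hA
    (c := ⟨x, hxI⟩) (fun e => hx0 (congrArg Subtype.val e))
  rw [Nat.cast_ofNat] at hi
  obtain ⟨j, rfl | rfl⟩ := i.eq_nat_or_neg
  · rw [zpow_natCast] at hi
    refine Or.inr (Or.inr ⟨j, Nat.one_le_iff_ne_zero.mpr fun e => ?_, hi⟩)
    rw [e, pow_zero] at hi
    exact absurd hi hx.ne
  · exfalso
    change A.valuation x = _ at hi
    rw [hi, zpow_neg, zpow_natCast, inv_lt_one₀ (pow_pos (zero_lt_iff.2 h20) j)] at hx
    exact not_lt.2 (pow_le_one₀ zero_le h2.le) hx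

end Fermat.Agent.LL
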