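/-
Level lowering: a two dimensional representation without stable rational line and with a non-trivial
unipotent stays irreducible over every field on every normal subgroup containing the unipotent.
-/
import Mathlib

set_option autoImplicit false

noncomputable section

open Matrix

namespace Fermat.Agent.LL

/-- Two vectors killed by a non-zero matrix are proportional. -/
theorem cross_eq_zero_of_kernel {K : Type} [Field K] {N : Matrix (Fin 2) (Fin 2) K} (hN : N ≠ 0)
    {v w : Fin 2 → K} (hv : N *ᵥ v = 0) (hw : N *ᵥ w = 0) : v 0 * w 1 = v 1 * w 0 := by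
  obtain ⟨i, hi⟩ : ∃ i, N i 0 ≠ 0 ∨ N i 1 ≠ 0 := by
    by_contra h
    push Not at h
    exact hN (Matrix.ext fun i j => by fin_cases j <;> simp [(h i).1, (h i).2])
  have a := congrFun hv i
  have b := congrFun hw i
  simp only [mulVec, dotProduct, Fin.sum_univ_two, Pi.zero_apply] at a b
  rcases hi with h | h
  · exact mul_left_cancel₀ h (by linear_combination (w 1) * a - (v 1) * b)
  · exact mul_left_cancel₀ h (by linear_combination (v 0) * b - (w 0) * a)

theorem eq_smul_of_cross {K : Type} [Field K] {v e : Fin 2 → K} (he : e ≠ 0)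
    (h : v 0 * e 1 = v 1 * e 0) : ∃ t : K, v = t • e := by
  rcases em (e 0 = 0) with h0 | h0
  · have h1 : e 1 ≠ 0 := fun h1 => he (funext fun i => by fin_cases i <;> simp [h0, h1])
    rw [h0, mul_zero] at h
    refine ⟨v 1 / e 1, funext fun i => ?_⟩
    fin_cases i
    · simp [h0, (mul_eq_zero.mp h).resolve_right h1]
    · simp [h1]
  · refine ⟨v 0 / e 0, funext fun i => ?_⟩
    fin_cases i
    · simp [h0]
    · show v 1 = v 0 / e 0 * e 1
      field_simp
      linear_combination -h

variable {F : Type} [Field F] {G : Type} [Group G] {R : G →* Matrix (Fin 2) (Fin 2) F}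

/-- A non-zero column of a non-zero square zero matrix is killed by it. -/
theorem exists_fixed_column {N : Matrix (Fin 2) (Fin 2) F} (hN : N * N = 0) (hN0 : N ≠ 0) :
    ∃ (j : Fin 2) (e : Fin 2 → F), e ≠ 0 ∧ N *ᵥ e = 0 ∧ e = N *ᵥ Pi.single j 1 := by
  obtain ⟨i, j, hij⟩ : ∃ i j, N i j ≠ 0 := by
    by_contra h
    push Not at h
    exact hN0 (Matrix.ext h)
  refine ⟨j, N *ᵥ Pi.single j 1, fun h => hij ?_, ?_, rfl⟩
  · simpa using congrFun h i
  · rw [mulVec_mulVec, hN, zero_mulVec]

variable (hline : ∀ e : Fin 2 → F,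
  (∀ g, (R g *ᵥ e) 0 * e 1 = (R g *ᵥ e) 1 * e 0) → e = 0)
include hline

/-- No eigenvector over any field. -/
theorem eq_zero_of_eigen {K : Type} [Field K] (ι : F →+* K) {u : G}
    (hu : (R u - 1) * (R u - 1) = 0) (hu1 : R u ≠ 1) {H : Subgroup G} (hH : H.Normal) (huH : u ∈ H)
    (v : Fin 2 → K) (hv : ∀ h ∈ H, ∃ c : K, (R h).map ι *ᵥ v = c • v) : v = 0 := by
  by_contra hv0
  set N := (R u - 1).map ι with hN
  have hN0 : N ≠ 0 := fun h => hu1 (sub_eq_zero.mp
    (Matrix.map_injective ι.injective (h.trans (Matrix.map_zero _ (map_zero ι)).symm)))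
  have hNN : N * N = 0 := by rw [hN, ← Matrix.map_mul, hu, Matrix.map_zero _ (map_zero ι)]
  have hNu : N = (R u).map ι - 1 := by
    rw [hN, Matrix.map_sub _ (map_sub ι), Matrix.map_one _ (map_zero ι) (map_one ι)]
  -- an eigenvector of `u` is killed by `N`
  have hker : ∀ w : Fin 2 → K, (∃ c : K, (R u).map ι *ᵥ w = c • w) → N *ᵥ w = 0 := by
    rintro w ⟨c, hc⟩
    have e : N *ᵥ w = (c - 1) • w := by
      rw [hNu, sub_mulVec, hc, one_mulVec, sub_smul, one_smul]
    rcases eq_or_ne w 0 with rfl | hw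
    · exact mulVec_zero _
    have e2 : ((c - 1) * (c - 1)) • w = 0 := by
      rw [← smul_smul, ← e, ← mulVec_smul, ← e, mulVec_mulVec, hNN, zero_mulVec]
    rcases smul_eq_zero.mp e2 with h | h
    · rw [e, mul_self_eq_zero.mp h, zero_smul]
    · exact absurd h hw
  obtain ⟨j, e, he, hNe, -⟩ := exists_fixed_column hu (fun h => hu1 (sub_eq_zero.mp h))
  set e' : Fin 2 → K := fun i => ι (e i) with he'
  have hmapv : ∀ (M : Matrix (Fin 2) (Fin 2) F), M.map ι *ᵥ e' = fun i => ι ((M *ᵥ e) i) := fun M =>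
    funext fun i => (RingHom.map_mulVec ι M e i).symm
  have hNe' : N *ᵥ e' = 0 := by
    rw [hN, hmapv, hNe]
    exact funext fun i => map_zero ι
  have he'0 : e' ≠ 0 := fun h => he (funext fun i => ι.injective (by
    rw [Pi.zero_apply, map_zero]; exact congrFun h i))
  -- conjugates of `v`
  have hgv : ∀ g : G, ∃ t : K, (R g).map ι *ᵥ v = t • e' := by
    intro g
    refine eq_smul_of_cross he'0 (cross_eq_zero_of_kernel hN0 (hker _ ?_) hNe')
    obtain ⟨c, hc⟩ := hv (g⁻¹ * u * g) (by simpa using hH.conj_mem u huH g⁻¹)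
    refine ⟨c, ?_⟩
    rw [mulVec_mulVec, ← Matrix.map_mul, ← map_mul, show u * g = g * (g⁻¹ * u * g) by group,
      map_mul, Matrix.map_mul, ← mulVec_mulVec, hc, mulVec_smul]
  obtain ⟨t, ht⟩ := hgv 1
  rw [map_one, Matrix.map_one _ (map_zero ι) (map_one ι), one_mulVec] at ht
  have ht0 : t ≠ 0 := fun h => hv0 (by rw [ht, h, zero_smul])
  refine he (hline e fun g => ι.injective ?_)
  obtain ⟨s, hs⟩ := hgv g
  rw [ht, mulVec_smul, hmapv] at hs
  have h0 := congrFun hs 0
  have h1 := congrFun hs 1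
  simp only [Pi.smul_apply, smul_eq_mul, he'] at h0 h1
  rw [map_mul, map_mul]
  refine mul_left_cancel₀ ht0 ?_
  linear_combination (ι (e 1)) * h0 - (ι (e 0)) * h1

/-- A unipotent element paired trivially with the whole image is trivial. -/
theorem eq_one_of_pairing {u : G} (hu : (R u - 1) * (R u - 1) = 0)
    (ht : ∀ g, ((R u - 1) * R g).trace = 0) : R u = 1 := by
  by_contra hu1
  set N := R u - 1 with hN
  have hN0 : N ≠ 0 := fun h => hu1 (sub_eq_zero.mp h)
  have htN : N.trace = 0 := by simpa using ht 1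
  have hd : N 1 1 = -N 0 0 := by
    rw [Matrix.trace_fin_two] at htN; linear_combination htN
  have h00 : N 0 0 * N 0 0 + N 0 1 * N 1 0 = 0 := by
    have := congrFun (congrFun hu 0) 0
    simpa [Matrix.mul_apply, Fin.sum_univ_two] using this
  have hsand : ∀ X : Matrix (Fin 2) (Fin 2) F, (N * X).trace = 0 → N * X * N = 0 := by
    intro X hX
    simp [Matrix.mul_apply, Fin.sum_univ_two, Matrix.trace_fin_two, hd] at hX
    ext i j
    fin_cases i <;> fin_cases j <;> simp [Matrix.mul_apply, Fin.sum_univ_two, hd]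
    · linear_combination (N 0 0) * hX + (X 1 1) * h00
    · linear_combination (N 0 1) * hX - (X 0 1) * h00
    · linear_combination (N 1 0) * hX - (X 1 0) * h00
    · linear_combination (-(N 0 0)) * hX + (X 0 0) * h00
  obtain ⟨j, e, he, hNe, hej⟩ := exists_fixed_column hu hN0
  refine he (hline e fun g => cross_eq_zero_of_kernel hN0 ?_ hNe)
  rw [hej, mulVec_mulVec, mulVec_mulVec, hsand _ (ht g), zero_mulVec]

end Fermat.Agent.LL
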