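/-
Level lowering: what residual modularity gives for `E[p]`: traces at good Frobenius elements, a
character of the Hecke algebra, and unipotence at the primes exactly dividing the level.
-/
import Fermat.Agent.GalRep.Wild.Theta
import Fermat.Agent.GalRep.Unipotent
import Fermat.Agent.GalRep.InertiaZero
import Fermat.Agent.GalRep.Wild.Lowering

set_option autoImplicit false
set_option linter.style.haveILetI false
set_option linter.unusedSectionVars false

noncomputable section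

open CongruenceSubgroup ModularFormClass
open WeierstrassCurve WeierstrassCurve.Affine.Point
open Fermat.Agent.EC
open Fermat.Agent.GalRep
open Fermat.Agent.Galois (GQ)

namespace Fermat.Agent.LL

/-- The residual matrices attached to an eigenform, with trace two on inertia at the primes exactly
dividing the level. -/
theorem exists_residual_matrix_semistable {N p : ℕ} [NeZero N] [Fact p.Prime]
    {g : CuspForm (Gamma0 N) 2} (hg : g.IsNormalizedEigenform)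
    {k : Type} [Field k] [CharP k p] (φ : integralClosure ℤ ℂ →+* k) :
    ∃ r : GQ →* Matrix (Fin 2) (Fin 2) k, GaloisFactorsThroughFiniteLevel r ∧
      (∀ ℓ : ℕ, ℓ.Prime → ¬ ℓ ∣ N → ℓ ≠ p →
        ∀ A : ValuationSubring (AlgebraicClosure ℚ), A.LiesOverPrime ℓ →
        ∀ σ : GQ, A.IsFrobeniusAt σ ℓ → ∃ a : integralClosure ℤ ℂ,
          (a : ℂ) = qCoeff ⇑g ℓ ∧ (r σ).trace = φ a ∧ (r σ).det = (ℓ : k)) ∧
      (∀ ℓ : ℕ, ℓ.Prime → ¬ ℓ ∣ N → ℓ ≠ p →
        ∀ A : ValuationSubring (AlgebraicClosure ℚ), A.LiesOverPrime ℓ →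
        ∀ σ ∈ A.inertiaSubgroupIn ℚ, r σ = 1) ∧
      (∀ q : ℕ, q.Prime → q ≠ p → q ∣ N → ¬ q ^ 2 ∣ N →
        ∀ A : ValuationSubring (AlgebraicClosure ℚ), A.LiesOverPrime q →
        ∀ σ ∈ A.inertiaSubgroupIn ℚ, (r σ).trace = 2) := by
  haveI : ∀ j, NeZero (p ^ j) := fun j => ⟨pow_ne_zero j (Fact.out : p.Prime).ne_zero⟩
  let D : EichlerShimuraDatum N p :=
    eichlerShimuraDatum (K := fun j => kummerGalois N (p ^ j)) (kummerCompat N)
      (fun j => kummerHeckeComm N (p ^ j)) (kummerFrobenius N (Model.kummerReduction N))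
  haveI := ker_isMaximal φ
  letI := Ideal.Quotient.field (RingHom.ker φ)
  haveI := isAlgClosed_quotient (𝔪 := RingHom.ker φ) inferInstance
  let j : integralClosure ℤ ℂ ⧸ RingHom.ker φ →+* k := RingHom.kerLift φ
  haveI : CharP (integralClosure ℤ ℂ ⧸ RingHom.ker φ) p :=
    (j.charP_iff_charP p).mpr inferInstance
  letI := padicAlgebraOfCharP (p := p) (integralClosure ℤ ℂ ⧸ RingHom.ker φ)
  obtain ⟨χ, hχ⟩ := exists_eigenCharacter hg ((↑(∅ : Finset ℕ) : Set ℕ))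
  have hp0 : (p : integralClosure ℤ ℂ ⧸ RingHom.ker φ) = 0 := CharP.cast_eq_zero _ p
  obtain ⟨ψ, hψ, -⟩ := exists_extension (D := D) (I := ⊥) (by rw [hp0]; exact zero_mem _)
    (fun r hr => by simpa using hr 1) ((Ideal.Quotient.mk (RingHom.ker φ)).comp χ)
  obtain ⟨r, B, -, -, -, -, htr, hdet, hker, hcts⟩ :=
    exists_twoDimRep D ∅ frobeniusPowDensity ψ
  have hE := isEigenRep_of_trace D ∅ frobeniusPowDensity ψ r htr hdet hker
  refine ⟨(Deform.mapHom j).comp r, ?_, fun ℓ hℓ hℓN hℓp A hA σ hσ => ?_,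
    fun ℓ hℓ hℓN hℓp A hA σ hσ => ?_, fun q hq hqp hqN hq2 A hA σ hσ => ?_⟩
  · obtain ⟨F, hF, hF1⟩ := hcts 1
    refine ⟨F, hF, fun σ hσ => ?_⟩
    obtain ⟨x, -, hx⟩ := hF1 σ hσ
    have : r σ = 1 := by
      rw [← sub_eq_zero, hx, pow_one, ← IsScalarTower.algebraMap_smul
        (integralClosure ℤ ℂ ⧸ RingHom.ker φ), map_natCast, hp0, zero_smul]
    rw [MonoidHom.comp_apply, this, map_one]
  · let i : GoodPrimeOff N (↑(∅ : Finset ℕ) : Set ℕ) := ⟨⟨⟨ℓ, hℓ⟩, hℓN⟩, by simp⟩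
    obtain ⟨h1, h2⟩ := hE.trace_frob i hℓp A hA σ hσ
    refine ⟨χ (CuspForm.heckeAlgebra.T hℓ hℓN i.2), hχ ℓ hℓ hℓN i.2, ?_, ?_⟩
    · show ((r σ).map j).trace = _
      rw [show ((r σ).map j).trace = j (r σ).trace by
        simp only [Matrix.trace_fin_two, Matrix.map_apply, RingHom.map_add j], h1, hψ i]
      rfl
    · show ((r σ).map j).det = _
      rw [← RingHom.mapMatrix_apply, ← RingHom.map_det, h2, map_natCast]
  · rw [MonoidHom.comp_apply, hE.unramified ℓ hℓ hℓN hℓp A hA σ hσ, map_one]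
  · have h := galois_prod_zero (p := p) (Model.kummerReduction N) (inertiaProdZero N) hq hqp hqN hq2
      hA hσ hσ
    have hu : uTrace D σ = 2 := uTrace_eq_two D (cyc_inertia p hq hqp hA hσ) (by
      simp only [sub_mul, mul_sub, one_mul, mul_one] at h
      rw [← h, two_nsmul]
      abel)
    have hu' : (⟨uTrace D σ, uTrace_mem D frobeniusPowDensity ∅ σ⟩ :
        heckeClosure D (↑(∅ : Finset ℕ) : Set ℕ)) = 2 := Subtype.ext hu
    show ((r σ).map j).trace = 2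
    rw [show ((r σ).map j).trace = j (r σ).trace by
        simp only [Matrix.trace_fin_two, Matrix.map_apply, RingHom.map_add j], htr, hu', map_ofNat,
      map_ofNat]

variable (P : FreyPackage) [Fact P.p.Prime] {N : ℕ} [NeZero N]

set_option maxHeartbeats 1000000 in
/-- The consequences of residual modularity. -/
theorem exists_frey_system (hmod : P.ModularRepOfLevel N) (hsq : Squarefree N)
    (S : Finset ℕ) (hNS : ∀ l : ℕ, l.Prime → l ∣ N → l ∈ S) (hpS : P.p ∈ S) :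
    ∃ (W : WeierstrassCurve ℤ) (a₀ : ℕ → ZMod P.p)
      (θ₀ : CuspForm.heckeAlgebra N 2 (↑S : Set ℕ) →+* ZMod P.p),
      W.IsIntegralModelOf P.freyCurve ∧
      (∀ l : ℕ, l.Prime → l ∉ S → W.IsGoodPrimeFor l → a₀ l = (W.apOfModel l : ZMod P.p)) ∧
      (∀ l : ℕ, l.Prime → l ∉ S → ∀ A : ValuationSubring (AlgebraicClosure ℚ), A.LiesOverPrime l →
        ∀ σ : GQ, A.IsFrobeniusAt σ l → Wild.freyTrace P σ = a₀ l) ∧
      (∀ (l : ℕ) (hl : l.Prime) (hlN : ¬ l ∣ N) (hlS : l ∉ (↑S : Set ℕ)),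
        θ₀ (CuspForm.heckeAlgebra.T hl hlN hlS) = a₀ l) ∧
      (∀ A : ValuationSubring (AlgebraicClosure ℚ), A.LiesOverPrime 2 →
        ∀ σ ∈ A.inertiaSubgroupIn ℚ, Wild.freyTrace P σ = 2) ∧
      (¬ 2 ∣ N → ∀ A : ValuationSubring (AlgebraicClosure ℚ), A.LiesOverPrime 2 →
        ∀ σ ∈ A.inertiaSubgroupIn ℚ, ∀ g : GQ, Wild.freyTrace P (σ * g) = Wild.freyTrace P g) := by
  classical
  obtain ⟨f, W, 𝔪, hf, hW, h𝔪, hp𝔪, hcong⟩ := hmod
  letI : Field (integralClosure ℤ ℂ ⧸ 𝔪) := Ideal.Quotient.field 𝔪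
  haveI : CharP (integralClosure ℤ ℂ ⧸ 𝔪) P.p := by
    refine (CharP.charP_iff_prime_eq_zero P.pp).mpr ?_
    rw [← map_natCast (Ideal.Quotient.mk 𝔪), Ideal.Quotient.eq_zero_iff_mem]
    exact hp𝔪
  set mk := Ideal.Quotient.mk 𝔪
  set ψ := ZMod.castHom (dvd_refl P.p) (integralClosure ℤ ℂ ⧸ 𝔪)
  have hψ : Function.Injective ψ := ψ.injective
  obtain ⟨r, hr, hfrob, hunr, hsemi⟩ := exists_residual_matrix_semistable (p := P.p) hf mk
  obtain ⟨L₁, hL₁, h1⟩ := hr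
  obtain ⟨L₂, hL₂, h2⟩ :=
    EC.exists_finite_level ℚ P.freyCurve.toAffine (K := AlgebraicClosure ℚ) P.p P.pp.one_le
  haveI := hL₁
  haveI := hL₂
  have hΔ := Wild.delta_ne_zero P hW
  -- the traces agree everywhere
  have hall : ∀ g : GQ, (r g).trace = ψ (Wild.freyTrace P g) := by
    intro g
    obtain ⟨ℓ, hℓ, hbad, A, hA, σ, hσ, b, hb⟩ :=
      frobeniusPowDensity (L₁ ⊔ L₂) (insert P.p (W.Δ.natAbs.primeFactors ∪ N.primeFactors)) g
    simp only [Finset.mem_insert, Finset.mem_union, not_or] at hbad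
    have hℓN : ¬ ℓ ∣ N := fun h => hbad.2.2 (Nat.mem_primeFactors.mpr ⟨hℓ, h, NeZero.ne N⟩)
    have hgood : W.IsGoodPrimeFor ℓ := fun h => hbad.2.1
      (Nat.mem_primeFactors.mpr ⟨hℓ, Int.natCast_dvd.mp h, Int.natAbs_ne_zero.mpr hΔ⟩)
    obtain ⟨a, ha, htr, hdet⟩ := hfrob ℓ hℓ hℓN hbad.1 A hA σ hσ
    obtain ⟨a', ha', hcg⟩ := hcong ℓ hℓ hgood hℓN hbad.1
    rw [show a = a' from Subtype.ext (ha.trans ha'.symm), (Ideal.Quotient.eq.mpr hcg :
      mk a' = mk ((W.apOfModel ℓ : ℤ) : integralClosure ℤ ℂ)), map_intCast] at htr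
    obtain ⟨hta, htω⟩ := Wild.freyTrace_frobenius P hW hℓ hgood hbad.1 hA hσ
    have hfix : ∀ x ∈ L₁ ⊔ L₂, ((σ ^ b)⁻¹ * g) x = x := fun x hx => by
      rw [AlgEquiv.mul_apply, ← hb x hx]
      exact (σ ^ b).symm_apply_apply x
    have e1 : r ((σ ^ b)⁻¹ * g) = 1 :=
      h1 _ fun x hx => hfix x ((le_sup_left : L₁ ≤ L₁ ⊔ L₂) hx)
    have e2 : galoisRepModuleEnd (K := AlgebraicClosure ℚ) ℚ P.freyCurve.toAffine P.p
        ((σ ^ b)⁻¹ * g) = 1 :=
      LinearMap.ext fun Q => h2 _ (fun x hx => hfix x ((le_sup_right : L₂ ≤ L₁ ⊔ L₂) hx)) Q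
    have hg : Wild.freyTrace P g = Wild.freyTrace P (σ ^ b) := by
      rw [Wild.freyTrace, Wild.freyTrace, galoisTrace_def, galoisTrace_def]
      conv_lhs => rw [← mul_inv_cancel_left (σ ^ b) g, map_mul, e2, mul_one]
    have hg' : r g = r (σ ^ b) := by
      conv_lhs => rw [← mul_inv_cancel_left (σ ^ b) g, map_mul, e1, mul_one]
    rw [hg', Wild.trace_pow_eq_frobPoly r htr hdet b, hg, Wild.freyTrace_pow P hta htω b,
      map_frobPoly, map_intCast, map_natCast]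
  let a₀ : ℕ → ZMod P.p := fun l =>
    if h : ∃ A : ValuationSubring (AlgebraicClosure ℚ), A.LiesOverPrime l ∧
      ∃ σ : GQ, A.IsFrobeniusAt σ l then Wild.freyTrace P h.choose_spec.2.choose else 0
  have hside : ∀ l : ℕ, l.Prime → l ∉ S → ¬ l ∣ N ∧ l ≠ P.p := fun l hl hlS =>
    ⟨fun h => hlS (hNS l hl h), fun h => hlS (h ▸ hpS)⟩
  -- every Frobenius has the trace of the eigenform
  have hform : ∀ l : ℕ, l.Prime → l ∉ S → ∀ a : integralClosure ℤ ℂ, (a : ℂ) = qCoeff ⇑f l →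
      ∀ A : ValuationSubring (AlgebraicClosure ℚ), A.LiesOverPrime l →
        ∀ σ : GQ, A.IsFrobeniusAt σ l → ψ (Wild.freyTrace P σ) = mk a := by
    intro l hl hlS a ha A hA σ hσ
    obtain ⟨a', ha', htr, -⟩ := hfrob l hl (hside l hl hlS).1 (hside l hl hlS).2 A hA σ hσ
    rw [show a = a' from Subtype.ext (ha.trans ha'.symm), ← htr, hall]
  have hfrobTrace : ∀ l : ℕ, l.Prime → l ∉ S →
      ∀ A : ValuationSubring (AlgebraicClosure ℚ), A.LiesOverPrime l →
      ∀ σ : GQ, A.IsFrobeniusAt σ l → Wild.freyTrace P σ = a₀ l := by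
    intro l hl hlS A hA σ hσ
    have h : ∃ A : ValuationSubring (AlgebraicClosure ℚ), A.LiesOverPrime l ∧
      ∃ σ : GQ, A.IsFrobeniusAt σ l := ⟨A, hA, σ, hσ⟩
    obtain ⟨a, ha, -, -⟩ := hfrob l hl (hside l hl hlS).1 (hside l hl hlS).2 A hA σ hσ
    refine hψ ?_
    rw [hform l hl hlS a ha A hA σ hσ, show a₀ l = Wild.freyTrace P h.choose_spec.2.choose from
      dif_pos h, hform l hl hlS a ha _ h.choose_spec.1 _ h.choose_spec.2.choose_spec]
  -- the character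
  obtain ⟨χ, hχ⟩ := exists_eigenCharacter hf (↑S : Set ℕ)
  set f' := mk.comp χ with hf'
  have hval : ∀ (l : ℕ) (hl : l.Prime) (hlN : ¬ l ∣ N) (hlS : l ∉ (↑S : Set ℕ)),
      f' (CuspForm.heckeAlgebra.T hl hlN hlS) = ψ (a₀ l) := by
    intro l hl hlN hlS
    obtain ⟨A, hA⟩ := Galois.exists_liesOverPrime hl
    obtain ⟨σ, hσ⟩ := Galois.exists_isFrobeniusAt hl hA
    rw [← hfrobTrace l hl hlS A hA σ hσ, hform l hl hlS _ (hχ l hl hlN hlS) A hA σ hσ]
    rfl
  have hrange : ∀ t, f' t ∈ ψ.range := by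
    rintro ⟨t, ht⟩
    induction ht using Algebra.adjoin_induction with
    | mem x hx =>
      rcases hx with ⟨l, hl, hlN, hlS, rfl⟩ | ⟨q', hqN, hq', hqS, rfl⟩
      · exact ⟨a₀ l, (hval l hl hlN hlS).symm⟩
      · exact absurd (hNS q' hq' hqN) hqS
    | algebraMap z =>
      show f' (algebraMap ℤ (CuspForm.heckeAlgebra N 2 (↑S : Set ℕ)) z) ∈ ψ.range
      rw [eq_intCast, map_intCast]
      exact intCast_mem _ _
    | add x y hx' hy' hx hy =>
      show f' (⟨x, hx'⟩ + ⟨y, hy'⟩) ∈ ψ.range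
      rw [map_add]
      exact add_mem hx hy
    | mul x y hx' hy' hx hy =>
      show f' (⟨x, hx'⟩ * ⟨y, hy'⟩) ∈ ψ.range
      rw [map_mul]
      exact mul_mem hx hy
  let e := RingEquiv.ofBijective ψ.rangeRestrict
    ⟨fun x y h => hψ (congrArg Subtype.val h), ψ.rangeRestrict_surjective⟩
  refine ⟨W, a₀, e.symm.toRingHom.comp (f'.codRestrict ψ.range hrange), hW,
    fun l hl hlS hgood => ?_, hfrobTrace, fun l hl hlN hlS => ?_, fun A hA σ hσ => ?_,
    fun h2N A hA σ hσ g => ?_⟩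
  · obtain ⟨A, hA⟩ := Galois.exists_liesOverPrime hl
    obtain ⟨σ, hσ⟩ := Galois.exists_isFrobeniusAt hl hA
    rw [← hfrobTrace l hl hlS A hA σ hσ,
      (Wild.freyTrace_frobenius P hW hl hgood (hside l hl hlS).2 hA hσ).1]
  · refine e.injective ?_
    show e (e.symm _) = e (a₀ l)
    rw [RingEquiv.apply_symm_apply]
    exact Subtype.ext (hval l hl hlN hlS)
  · have hp2 : (2 : ℕ) ≠ P.p := by have := P.hp5; omega
    refine hψ ?_
    rw [← hall, map_ofNat]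
    by_cases h2N : 2 ∣ N
    · exact hsemi 2 Nat.prime_two hp2 h2N (fun h => Nat.prime_two.not_isUnit
        (hsq 2 (by rwa [← pow_two]))) A hA σ hσ
    · rw [hunr 2 Nat.prime_two h2N hp2 A hA σ hσ, Matrix.trace_one, Fintype.card_fin]
      norm_num
  · have hp2 : (2 : ℕ) ≠ P.p := by have := P.hp5; omega
    refine hψ ?_
    rw [← hall, ← hall, map_mul, hunr 2 Nat.prime_two h2N hp2 A hA σ hσ, one_mul]

end Fermat.Agent.LL
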