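/-
Level lowering: `E[p]` by matrices, its unipotent at `2` and irreducibility over every field.
-/
import Fermat.Agent.LL.Frey.AtTwo
import Fermat.Agent.LL.Frey.Lines
import Fermat.Agent.LL.Frey.Modular
import Fermat.Agent.EC.Local.Borel

set_option autoImplicit false
set_option linter.style.haveILetI false

noncomputable section

open WeierstrassCurve WeierstrassCurve.Affine.Point
open Fermat.Agent.EC
open Fermat.Agent.Galois (GQ)
open Fermat.Agent.Deform (Mat2)
open scoped WeierstrassCurve.Affine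

namespace Fermat.Agent.LL

variable (P : FreyPackage) [Fact P.p.Prime]

/-- A basis of `E[p]`. -/
def freyBasis : Module.Basis (Fin 2) (ZMod P.p) (FreyTorsion P) :=
  haveI : Module.Finite (ZMod P.p) (FreyTorsion P) :=
    Module.finite_of_finrank_eq_succ (EC.finrank_torsionBy (K := AlgebraicClosure ℚ) P.freyCurve.toAffine P.p)
  Module.finBasisOfFinrankEq (ZMod P.p) _
    (EC.finrank_torsionBy (K := AlgebraicClosure ℚ) P.freyCurve.toAffine P.p)

/-- The matrices of `E[p]`. -/
def freyMat : GQ →* Mat2 (ZMod P.p) :=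
  (LinearMap.toMatrixAlgEquiv (freyBasis P)).toMulEquiv.toMonoidHom.comp
    (galoisRepModuleEnd (K := AlgebraicClosure ℚ) ℚ P.freyCurve.toAffine P.p)

theorem freyMat_apply (σ : GQ) : freyMat P σ = LinearMap.toMatrixAlgEquiv (freyBasis P)
    (galoisRepModuleEnd (K := AlgebraicClosure ℚ) ℚ P.freyCurve.toAffine P.p σ) := rfl

theorem trace_freyMat (σ : GQ) : (freyMat P σ).trace = GalRep.Wild.freyTrace P σ := by
  rw [GalRep.Wild.freyTrace, galoisTrace_def]
  exact (LinearMap.trace_eq_matrix_trace _ (freyBasis P) _).symm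

theorem det_freyMat (σ : GQ) : (freyMat P σ).det = freyOmega P σ := by
  rw [← det_eq_freyOmega]
  exact LinearMap.det_toMatrix (freyBasis P) _

theorem freyMat_eq_one_iff (σ : GQ) :
    freyMat P σ = 1 ↔ ∀ x : FreyTorsion P, σ • x = x := by
  rw [freyMat_apply, ← map_one (LinearMap.toMatrixAlgEquiv (freyBasis P)),
    (LinearMap.toMatrixAlgEquiv (freyBasis P)).injective.eq_iff, LinearMap.ext_iff]
  simp [galoisRepModuleEnd_apply]

theorem freyMat_eq_smul_one (σ : GQ) (c : ℤ) (h : ∀ x : FreyTorsion P, σ • x = c • x) :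
    freyMat P σ = (c : ZMod P.p) • 1 := by
  rw [freyMat_apply, show galoisRepModuleEnd (K := AlgebraicClosure ℚ) ℚ P.freyCurve.toAffine P.p σ =
    (c : ZMod P.p) • 1 from LinearMap.ext fun x => by
      rw [galoisRepModuleEnd_apply, LinearMap.smul_apply, Module.End.one_apply,
        Int.cast_smul_eq_zsmul]
      exact h x, map_smul, map_one]

/-- No stable line, by coordinates. -/
theorem freyMat_no_line
    (hirr : GaloisRepIsIrreducible (K := AlgebraicClosure ℚ) ℚ P.freyCurve P.p)
    (e : Fin 2 → ZMod P.p)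
    (he : ∀ g, (Matrix.mulVec (freyMat P g) e) 0 * e 1 = (Matrix.mulVec (freyMat P g) e) 1 * e 0) :
    e = 0 := by
  by_contra he0
  set x := (freyBasis P).equivFun.symm e with hx
  have hxe : ∀ i, (freyBasis P).repr x i = e i := fun i => by
    rw [← Module.Basis.equivFun_apply, hx, LinearEquiv.apply_symm_apply]
  have hx0 : x ≠ 0 := fun h => he0 ((LinearEquiv.map_eq_zero_iff _).mp h)
  rcases hirr.2 (Submodule.span (ZMod P.p) {x}) (fun σ y hy => by
    obtain ⟨c, rfl⟩ := Submodule.mem_span_singleton.mp hy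
    obtain ⟨t, ht⟩ := eq_smul_of_cross he0 (he σ)
    refine Submodule.mem_span_singleton.mpr ⟨c * t, ?_⟩
    rw [← galoisRepModuleEnd_apply, map_smul, mul_smul]
    congr 1
    refine (freyBasis P).ext_elem fun i => ?_
    have h := congrFun (LinearMap.toMatrix_mulVec_repr (freyBasis P) (freyBasis P)
      (galoisRepModuleEnd (K := AlgebraicClosure ℚ) ℚ P.freyCurve.toAffine P.p σ) x) i
    rw [show ((freyBasis P).repr x : Fin 2 → ZMod P.p) = e from funext hxe] at h
    rw [← h, map_smul, Finsupp.smul_apply, hxe]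
    exact (congrFun ht i).symm) with h | h
  · exact hx0 (Submodule.span_singleton_eq_bot.mp h)
  · have h1 := finrank_span_singleton (K := ZMod P.p) (v := x) hx0
    rw [h, finrank_top,
      EC.finrank_torsionBy (K := AlgebraicClosure ℚ) P.freyCurve.toAffine P.p] at h1
    omega

/-- Powers of a unipotent. -/
theorem pow_eq_of_sq_zero {R : Type} [CommRing R] {M : Mat2 R} (h : (M - 1) * (M - 1) = 0) (n : ℕ) :
    M ^ n = 1 + (n : R) • (M - 1) := by
  induction n with
  | zero => simp
  | succ n ih =>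
    rw [pow_succ, ih]
    conv_lhs => enter [2]; rw [← add_sub_cancel 1 M]
    rw [Nat.cast_succ, add_smul, one_smul, mul_add, mul_one, add_mul, one_mul, smul_mul_assoc, h,
      smul_zero, add_zero, add_assoc]

theorem sq_zero_of_trace_det {R : Type} [CommRing R] {M : Mat2 R} (ht : M.trace = 2) (hd : M.det = 1) :
    (M - 1) * (M - 1) = 0 := by
  rw [Matrix.trace_fin_two] at ht
  rw [Matrix.det_fin_two] at hd
  ext i j
  fin_cases i <;> fin_cases j <;> simp [Matrix.mul_apply, Fin.sum_univ_two]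
  · linear_combination (M 0 0) * ht - hd
  · linear_combination (M 0 1) * ht
  · linear_combination (M 1 0) * ht
  · linear_combination (M 1 1) * ht - hd

/-- Inertia at `2` has determinant one. -/
theorem freyOmega_inertia_two {A : ValuationSubring (AlgebraicClosure ℚ)} (hA : A.LiesOverPrime 2)
    {σ : GQ} (hσ : σ ∈ A.inertiaSubgroupIn ℚ) : freyOmega P σ = 1 := by
  have hp2 : (2 : ℕ) ≠ P.p := by have := P.hp5; omega
  rw [freyOmega, GalRep.cyc_inertia P.p Nat.prime_two hp2 hA hσ, Units.val_one, map_one]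

theorem sq_zero_inertia_two (htr : ∀ A : ValuationSubring (AlgebraicClosure ℚ), A.LiesOverPrime 2 →
      ∀ σ ∈ A.inertiaSubgroupIn ℚ, GalRep.Wild.freyTrace P σ = 2)
    {A : ValuationSubring (AlgebraicClosure ℚ)} (hA : A.LiesOverPrime 2) {σ : GQ}
    (hσ : σ ∈ A.inertiaSubgroupIn ℚ) : (freyMat P σ - 1) * (freyMat P σ - 1) = 0 :=
  sq_zero_of_trace_det (by rw [trace_freyMat, htr A hA σ hσ])
    (by rw [det_freyMat, freyOmega_inertia_two P hA hσ])

/-- Inside every subgroup of index at most two there is a non-trivial unipotent. -/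
theorem exists_unipotent_mem (htr : ∀ A : ValuationSubring (AlgebraicClosure ℚ), A.LiesOverPrime 2 →
      ∀ σ ∈ A.inertiaSubgroupIn ℚ, GalRep.Wild.freyTrace P σ = 2) (H : Subgroup GQ)
    (hH : ∀ g : GQ, g * g ∈ H) :
    ∃ u ∈ H, (freyMat P u - 1) * (freyMat P u - 1) = 0 ∧ freyMat P u ≠ 1 := by
  obtain ⟨A, hA⟩ := Galois.exists_liesOverPrime Nat.prime_two
  obtain ⟨σ, hσ, x, hx⟩ := exists_inertia_two_moves P hA
  have hN := sq_zero_inertia_two P htr hA hσ
  obtain ⟨m, hm⟩ : Even (P.p + 1) := P.hp_odd.add_one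
  refine ⟨σ ^ (P.p + 1), ?_, ?_⟩
  · rw [hm, pow_add]; exact hH _
  rw [map_pow, pow_eq_of_sq_zero hN, Nat.cast_succ, ZMod.natCast_self, zero_add, one_smul,
    add_sub_cancel]
  exact ⟨hN, fun h => hx ((freyMat_eq_one_iff P σ).mp h x)⟩

/-- `2` divides every level prime to `p` of residual modularity. -/
theorem not_unramified_two
    (hirr : GaloisRepIsIrreducible (K := AlgebraicClosure ℚ) ℚ P.freyCurve P.p)
    (htr : ∀ A : ValuationSubring (AlgebraicClosure ℚ), A.LiesOverPrime 2 →
      ∀ σ ∈ A.inertiaSubgroupIn ℚ, GalRep.Wild.freyTrace P σ = 2)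
    (hunr : ∀ A : ValuationSubring (AlgebraicClosure ℚ), A.LiesOverPrime 2 →
      ∀ σ ∈ A.inertiaSubgroupIn ℚ, ∀ g : GQ, GalRep.Wild.freyTrace P (σ * g) = GalRep.Wild.freyTrace P g) :
    False := by
  obtain ⟨A, hA⟩ := Galois.exists_liesOverPrime Nat.prime_two
  obtain ⟨σ, hσ, x, hx⟩ := exists_inertia_two_moves P hA
  refine hx ((freyMat_eq_one_iff P σ).mp (eq_one_of_pairing (freyMat_no_line P hirr)
    (sq_zero_inertia_two P htr hA hσ) fun g => ?_) x)
  rw [Matrix.sub_mul, one_mul, Matrix.trace_sub, ← map_mul, trace_freyMat, trace_freyMat,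
    hunr A hA σ hσ g, sub_self]

end Fermat.Agent.LL
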